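/-
Row RIBET, piece R3S (helper404): `Spec.EigenformOfOccursAwayStatement`, UNCONDITIONAL.

An eigensystem `a` occurring in `J₀(M)[p]` away from a finite set `S ⊇ {ℓ ∣ M·p}` is the reduction
of a normalised eigenform of level `M`.

Pure glue of three landed results:
* ONTO  (`S30.H810.exists_isParHom_isKum_of_torsion`): every `p`-torsion class `x` of `J₀(M)(ℚ̄)`
  is the Kummer class of a parabolic character `c : Γ₀(M) → ℤ/p`;
* the Kummer package (`S30.Chain.kumPackage`): uniqueness, injectivity, additivity and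
  Hecke-equivariance of the Kummer relation, so that `T_ℓ x = a_ℓ x` gives `T_ℓ c = a_ℓ c`;
* R3 core (`Lib.HFree.H412.exists_eigenform_of_eigen_isParHom`, helper412): a nonzero parabolic
  Hecke eigen-character mod `p` is congruent to a normalised eigenform.
-/
import Fermat.Agent.Ribet.Spec2
import Fermat.Agent.S30.Chain.Package
import Fermat.Agent.S30.H810.ParHom
import Fermat.Agent.Lib.HFree.H412.R3Core

set_option autoImplicit false
set_option linter.unusedSectionVars false

open CuspForm ModularFormClass ModularCurve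

namespace Fermat.Agent.Ribet.H404

open Fermat.Agent.S29 Fermat.Agent.S29.M4b Fermat.Agent.S30.H450

variable {N m : ℕ} [NeZero N]

/-- The zero character is parabolic. -/
theorem r3s_isParHom_zero : IsParHom (0 : G0 N → ZMod m) :=
  ⟨fun _ _ => by simp, fun _ _ => rfl, fun _ _ _ _ => rfl⟩

/-- The Kummer class of the zero character is zero. -/
theorem r3s_isKum_zero (K : KumPackage N m) : IsKum N m (0 : G0 N → ZMod m) (0 : JZero N) := by
  obtain ⟨x0, h0⟩ := K.ex 0 r3s_isParHom_zero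
  have h1 := K.add 0 0 x0 x0 h0 h0
  rw [add_zero] at h1
  have hx : x0 + x0 = x0 := K.uniq 0 _ _ h1 h0
  have hx0 : x0 = 0 := by simpa using hx
  rwa [hx0] at h0

/-- Natural multiples of a Kummer pair. -/
theorem r3s_isKum_nsmul (K : KumPackage N m) {c : G0 N → ZMod m} {x : JZero N}
    (h : IsKum N m c x) (n : ℕ) : IsKum N m (n • c) (n • x) := by
  induction n with
  | zero => simpa using r3s_isKum_zero K
  | succ k ih =>
    rw [succ_nsmul, succ_nsmul]
    exact K.add _ _ _ _ ih h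

/-- Two characters with the same Kummer class (killed by `m`) coincide. -/
theorem r3s_char_unique [NeZero m] (K : KumPackage N m) {c c' : G0 N → ZMod m} {y : JZero N}
    (hy : m • y = 0) (h : IsKum N m c y) (h' : IsKum N m c' y) : c = c' := by
  obtain ⟨k, hk⟩ : ∃ k : ℕ, m = k + 1 :=
    ⟨m - 1, by have := Nat.pos_of_ne_zero (NeZero.ne m); omega⟩
  have h1 := K.add _ _ _ _ h (r3s_isKum_nsmul K h' k)
  have hyk : y + k • y = 0 := by
    rw [← hy, hk, succ_nsmul, add_comm]
  rw [hyk] at h1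
  have h2 := K.inj _ h1
  funext γ
  have h3 : c γ + (k : ZMod m) * c' γ = 0 := by
    have := congrFun h2 γ
    simpa [nsmul_eq_mul] using this
  have hk1 : (k : ZMod m) = -1 := by
    have : ((k + 1 : ℕ) : ZMod m) = 0 := by rw [← hk]; exact ZMod.natCast_self m
    push_cast at this
    linear_combination this
  rw [hk1] at h3
  linear_combination h3

/-- **R3S**: an eigensystem occurring in `J₀(M)[p]` away from `S ⊇ {ℓ ∣ M·p}` is the reduction of
a normalised eigenform of level `M`. -/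
theorem eigenformOfOccursAway : Spec.EigenformOfOccursAwayStatement := by
  intro M p _ hp S a hS hocc
  obtain ⟨x, hx0, hpx, hT⟩ := hocc
  have : NeZero p := ⟨hp.ne_zero⟩
  have hpx' : (p : ℤ) • x = 0 := by rw [natCast_zsmul]; exact hpx
  obtain ⟨c, hc, hk⟩ := Fermat.Agent.S30.H810.exists_isParHom_isKum_of_torsion M p hpx'
  have K : KumPackage M p := Fermat.Agent.S30.Chain.kumPackage M p
  -- the character is nonzero
  have hc0 : ∃ γ, c γ ≠ 0 := by
    by_contra h
    push Not at h
    have hcz : c = 0 := funext h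
    rw [hcz] at hk
    exact hx0 (K.uniq 0 _ _ hk (r3s_isKum_zero K))
  -- the character is an eigen-character
  have heig : ∀ ℓ : ℕ, ℓ.Prime → ¬ ℓ ∣ M → ℓ ∉ (S : Set ℕ) →
      ∀ γ : G0 M, heckeCoh M ℓ c γ = (a ℓ : ZMod p) * c γ := by
    intro ℓ hℓ _ hℓS γ
    have hℓS' : ℓ ∉ S := hℓS
    have hℓMp : ¬ ℓ ∣ M * p := fun hd => hℓS' (hS ℓ hℓ hd)
    have h1 : IsKum M p (heckeCoh M ℓ c) (heckeOperatorBar M ⟨ℓ, hℓ⟩ x) :=
      K.hecke ⟨ℓ, hℓ⟩ hℓMp c x hc hk
    rw [hT ⟨ℓ, hℓ⟩ hℓS'] at h1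
    -- replace the integer `a ℓ` by a natural number in the same class mod `p`
    set n : ℕ := (a ℓ % (p : ℤ)).toNat with hn
    have hp0 : (0 : ℤ) < p := by exact_mod_cast hp.pos
    have hnz : (n : ℤ) = a ℓ % (p : ℤ) := Int.toNat_of_nonneg (Int.emod_nonneg _ hp0.ne')
    have hax : a ℓ • x = n • x := by
      have hdecomp : a ℓ = (p : ℤ) * (a ℓ / (p : ℤ)) + (n : ℤ) := by
        rw [hnz]; exact (Int.mul_ediv_add_emod (a ℓ) p).symm
      rw [hdecomp, add_zsmul, mul_comm, mul_zsmul, hpx', smul_zero, zero_add, natCast_zsmul]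
    have hna : (n : ZMod p) = (a ℓ : ZMod p) := by
      have : ((n : ℤ) : ZMod p) = ((a ℓ % (p : ℤ) : ℤ) : ZMod p) := by rw [hnz]
      rw [Int.cast_natCast] at this
      rw [this]
      exact (ZMod.intCast_mod (a ℓ) p)
    rw [hax] at h1
    have h2 : IsKum M p (n • c) (n • x) := r3s_isKum_nsmul K hk n
    have hy : p • (n • x) = 0 := by rw [smul_comm, hpx, smul_zero]
    have h3 := r3s_char_unique K hy h1 h2
    have := congrFun h3 γ
    rw [this]
    simp [nsmul_eq_mul, hna]
  obtain ⟨g, 𝔪, hg, hmax, hpm, hcong⟩ :=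
    Fermat.Agent.Lib.HFree.H412.exists_eigenform_of_eigen_isParHom hp (S : Set ℕ) a c hc hc0 heig
  refine ⟨g, 𝔪, hg, hmax, hpm, fun ℓ hℓ hℓS => ?_⟩
  have hℓM : ¬ ℓ ∣ M := fun hd => hℓS (hS ℓ hℓ (Dvd.dvd.mul_right hd p))
  exact hcong ℓ hℓ hℓM (by simpa using hℓS)

end Fermat.Agent.Ribet.H404
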